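import Mathlib
import Fermat.Prelude.Def_GaloisRep_Residual
import Fermat.Agent.Lib.Cheb.FrobeniusDivision
import Fermat.Agent.S54.FrobExists

/-!
# Row S59, cell TW, layer 3 (AUT), leaf FREE: the auxiliary prime at `p = 3` (helper186)

`exists_prime_trace_ne_zero_h186` : `k` a field of characteristic `3`, `ρ̄ : G_ℚ → GL₂(k)` whose
restriction to every subgroup of index `2` is absolutely irreducible (`ResidualHyp.hTW`), with
Frobenius characteristic polynomials `X² - a_ℓ X + ℓ` off a finite set `S`.  Then there is a prime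
`r ∉ S`, `r ≡ 2 mod 3`, with `a_r ≠ 0`.

Use (case (B) of leaf FREE, `coord/S59-AUT.md` trap 3): `Γ₀(M r)` has no element of order `3`
and `T_r` is invertible on the localisation at `θ`.

Proof: otherwise `tr ρ̄(σ) = 0` for every `σ` outside `H = ker (det ρ̄)` (Frobenius division
`Lib.Cheb.frobeniusDivision`), `H` has index `2` (Dirichlet: a Frobenius at a prime `≡ 2 mod 3`),
and `ρ̄(H)` has a common eigenvector over `k̄` (`exists_stable_line_h186`).

`exists_stable_line_h186` (Mathlib only): `V` a plane over a field `k` of characteristic `≠ 2`,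
`g` an involution of `V` of trace `0`, `Hs` a multiplicatively closed set of endomorphisms with
`tr (g x) = 0` for every `x ∈ Hs`; then the elements of `Hs` have a common eigenvector over every
algebraically closed extension `K` of `k`.  (In an eigenbasis of `g = diag(1, -1)` every `x ∈ Hs`
is `[[a, b], [c, a]]` and `b c' = c b'` for `x, x' ∈ Hs`; so either `c = 0` for all `x`, or
`b = μ c` for a fixed `μ` and `s e₀ + e₁` is a common eigenvector, `s² = μ`.)
-/

set_option autoImplicit false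

open Polynomial Module
open scoped TensorProduct

namespace Fermat.Agent.S59.TW.Aut.H186

section Line

variable {k : Type*} [Field k] {V : Type*} [AddCommGroup V] [Module k V]

/-- An involution of trace `0` of a plane has an eigenbasis, with eigenvalues `1`, `-1`. -/
theorem exists_eigenbasis_h186 (h2 : (2 : k) ≠ 0) (hdim : finrank k V = 2)
    (g : End k V) (hg : g * g = 1) (htr : LinearMap.trace k V g = 0) :
    ∃ b : Basis (Fin 2) k V, g (b 0) = b 0 ∧ g (b 1) = - b 1 := by
  classical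
  have hfin : Module.Finite k V := Module.finite_of_finrank_eq_succ hdim
  have hgg : ∀ v, g (g v) = v := fun v => by
    have := congrArg (fun f : End k V => f v) hg
    simpa using this
  have hne1 : g ≠ 1 := by
    rintro rfl
    rw [LinearMap.trace_one, hdim] at htr
    exact h2 (by exact_mod_cast htr)
  have hne2 : g ≠ -1 := by
    rintro rfl
    rw [map_neg, LinearMap.trace_one, hdim, neg_eq_zero] at htr
    exact h2 (by exact_mod_cast htr)
  obtain ⟨u₁, hu₁⟩ : ∃ u, g u ≠ u := by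
    by_contra h
    simp only [not_exists, not_not] at h
    exact hne1 (LinearMap.ext h)
  obtain ⟨u₂, hu₂⟩ : ∃ u, g u ≠ -u := by
    by_contra h
    simp only [not_exists, not_not] at h
    exact hne2 (LinearMap.ext fun v => by simpa using h v)
  set vp : V := g u₂ + u₂ with hvp
  set vm : V := g u₁ - u₁ with hvm
  have hvp0 : vp ≠ 0 := fun h => hu₂ (eq_neg_of_add_eq_zero_left h)
  have hvm0 : vm ≠ 0 := fun h => hu₁ (sub_eq_zero.mp h)
  have hgp : g vp = vp := by rw [hvp, map_add, hgg, add_comm]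
  have hgm : g vm = -vm := by rw [hvm, map_sub, hgg, neg_sub]
  have hli : LinearIndependent k ![vp, vm] := by
    rw [LinearIndependent.pair_iff]
    intro s t hst
    have h1 : s • vp - t • vm = 0 := by
      have := congrArg g hst
      rw [map_add, map_smul, map_smul, hgp, hgm, smul_neg, map_zero, ← sub_eq_add_neg] at this
      exact this
    have hs : (2 * s) • vp = 0 := by
      have : (2 * s) • vp = (s • vp + t • vm) + (s • vp - t • vm) := by
        rw [mul_smul, two_smul]; abel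
      rw [this, hst, h1, add_zero]
    have ht : (2 * t) • vm = 0 := by
      have : (2 * t) • vm = (s • vp + t • vm) - (s • vp - t • vm) := by
        rw [mul_smul, two_smul]; abel
      rw [this, hst, h1, sub_zero]
    rcases smul_eq_zero.mp hs with h | h
    · rcases smul_eq_zero.mp ht with h' | h'
      · exact ⟨(mul_eq_zero.mp h).resolve_left h2, (mul_eq_zero.mp h').resolve_left h2⟩
      · exact absurd h' hvm0
    · exact absurd h hvp0
  have hcard : Fintype.card (Fin 2) = finrank k V := by rw [hdim]; rfl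
  refine ⟨basisOfLinearIndependentOfCardEqFinrank hli hcard, ?_, ?_⟩
  · rw [coe_basisOfLinearIndependentOfCardEqFinrank]
    exact hgp
  · rw [coe_basisOfLinearIndependentOfCardEqFinrank]
    exact hgm

/-- **The stable line.** -/
theorem exists_stable_line_h186 (h2 : (2 : k) ≠ 0) (hdim : finrank k V = 2)
    (g : End k V) (hg : g * g = 1) (htr : LinearMap.trace k V g = 0)
    (Hs : Set (End k V)) (hmul : ∀ x ∈ Hs, ∀ y ∈ Hs, x * y ∈ Hs)
    (hH : ∀ x ∈ Hs, LinearMap.trace k V (g * x) = 0)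
    (K : Type*) [Field K] [Algebra k K] [IsAlgClosed K] :
    ∃ w : K ⊗[k] V, w ≠ 0 ∧ ∀ x ∈ Hs, ∃ c : K, x.baseChange K w = c • w := by
  classical
  obtain ⟨b, hb0, hb1⟩ := exists_eigenbasis_h186 h2 hdim g hg htr
  -- the matrix of `x`
  obtain ⟨M, hM⟩ : ∃ M : End k V → Matrix (Fin 2) (Fin 2) k,
      ∀ x, M x = LinearMap.toMatrix b b x := ⟨_, fun _ => rfl⟩
  have hMmul : ∀ x y : End k V, M (x * y) = M x * M y := fun x y => by
    rw [hM, hM, hM]
    exact LinearMap.toMatrix_mul b x y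
  have hMg : M g = !![1, 0; 0, -1] := by
    ext i j
    rw [hM, LinearMap.toMatrix_apply]
    fin_cases i <;> fin_cases j <;> simp [hb0, hb1]
  have htrM : ∀ x : End k V, LinearMap.trace k V (g * x) = M x 0 0 - M x 1 1 := by
    intro x
    rw [LinearMap.trace_eq_matrix_trace k b, ← hM, hMmul, hMg, Matrix.trace_fin_two]
    simp [Matrix.mul_apply, Fin.sum_univ_two]
    ring
  have hdiag : ∀ x ∈ Hs, M x 0 0 = M x 1 1 := fun x hx =>
    sub_eq_zero.mp ((htrM x).symm.trans (hH x hx))
  have hcross : ∀ x ∈ Hs, ∀ y ∈ Hs, M x 0 1 * M y 1 0 = M x 1 0 * M y 0 1 := by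
    intro x hx y hy
    have h := hdiag (x * y) (hmul x hx y hy)
    rw [hMmul] at h
    simp only [Matrix.mul_apply, Fin.sum_univ_two] at h
    rw [hdiag x hx, hdiag y hy] at h
    linear_combination h
  -- the base change
  set e0 : K ⊗[k] V := (1 : K) ⊗ₜ[k] b 0 with he0
  set e1 : K ⊗[k] V := (1 : K) ⊗ₜ[k] b 1 with he1
  have hx0 : ∀ x : End k V, x.baseChange K e0 =
      algebraMap k K (M x 0 0) • e0 + algebraMap k K (M x 1 0) • e1 := by
    intro x
    have hxb : x (b 0) = M x 0 0 • b 0 + M x 1 0 • b 1 := by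
      have := b.sum_repr (x (b 0))
      rw [Fin.sum_univ_two] at this
      rw [hM, LinearMap.toMatrix_apply, LinearMap.toMatrix_apply]
      exact this.symm
    rw [he0, he1, LinearMap.baseChange_tmul, hxb, TensorProduct.tmul_add,
      TensorProduct.tmul_smul, TensorProduct.tmul_smul, algebraMap_smul, algebraMap_smul]
  have hx1 : ∀ x : End k V, x.baseChange K e1 =
      algebraMap k K (M x 0 1) • e0 + algebraMap k K (M x 1 1) • e1 := by
    intro x
    have hxb : x (b 1) = M x 0 1 • b 0 + M x 1 1 • b 1 := by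
      have := b.sum_repr (x (b 1))
      rw [Fin.sum_univ_two] at this
      rw [hM, LinearMap.toMatrix_apply, LinearMap.toMatrix_apply]
      exact this.symm
    rw [he0, he1, LinearMap.baseChange_tmul, hxb, TensorProduct.tmul_add,
      TensorProduct.tmul_smul, TensorProduct.tmul_smul, algebraMap_smul, algebraMap_smul]
  have hliK : LinearIndependent K ![e0, e1] := by
    have h := (b.baseChange K).linearIndependent
    have h' : (⇑(b.baseChange K) : Fin 2 → K ⊗[k] V) = ![e0, e1] := by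
      funext i
      fin_cases i <;> simp [Basis.baseChange_apply, he0, he1]
    rwa [h'] at h
  rw [LinearIndependent.pair_iff] at hliK
  by_cases hc : ∀ x ∈ Hs, M x 1 0 = 0
  · refine ⟨e0, ?_, fun x hx => ⟨algebraMap k K (M x 0 0), ?_⟩⟩
    · intro h
      have := hliK 1 0 (by rw [one_smul, zero_smul, add_zero, h])
      exact one_ne_zero this.1
    · rw [hx0, hc x hx, map_zero, zero_smul, add_zero]
  · simp only [not_forall] at hc
    obtain ⟨x₀, hx₀, hc₀⟩ := hc
    obtain ⟨s, hs⟩ := IsAlgClosed.exists_eq_mul_self (algebraMap k K (M x₀ 0 1 / M x₀ 1 0))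
    refine ⟨s • e0 + e1, ?_, fun x hx =>
      ⟨algebraMap k K (M x 0 0) + s * algebraMap k K (M x 1 0), ?_⟩⟩
    · intro h
      have := hliK s 1 (by rw [one_smul, h])
      exact one_ne_zero this.2
    · have hb : M x 0 1 = (M x₀ 0 1 / M x₀ 1 0) * M x 1 0 := by
        have := hcross x hx x₀ hx₀
        field_simp
        linear_combination this
      have hb' : algebraMap k K (M x 0 1) = s * s * algebraMap k K (M x 1 0) := by
        rw [hb, map_mul, hs]
      rw [map_add, map_smul, hx0, hx1, hb', ← hdiag x hx]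
      module

end Line

section LA

variable {k : Type*} [Field k] {V : Type*} [AddCommGroup V] [Module k V]

/-- Trace, determinant and the Cayley–Hamilton relation of an endomorphism of a plane with
characteristic polynomial `X² - a X + c`. -/
theorem facts_of_charpoly_h186 [Module.Finite k V] (hdim : finrank k V = 2) (f : End k V)
    (a c : k)
    (h : LinearMap.charpoly f = X ^ 2 - C a * X + C c) :
    LinearMap.trace k V f = a ∧ LinearMap.det f = c ∧
      f * f - a • f + c • (1 : End k V) = 0 := by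
  classical
  refine ⟨?_, ?_, ?_⟩
  · have hcard : Fintype.card (Module.Free.ChooseBasisIndex k V) = 2 := by
      rw [← Module.finrank_eq_card_chooseBasisIndex, hdim]
    have : Nonempty (Module.Free.ChooseBasisIndex k V) := by
      rw [← Fintype.card_pos_iff, hcard]; norm_num
    rw [LinearMap.trace_eq_matrix_trace k (Module.Free.chooseBasis k V) f,
      Matrix.trace_eq_neg_charpoly_coeff, hcard,
      LinearMap.charpoly_toMatrix f (Module.Free.chooseBasis k V), h]
    simp [Polynomial.coeff_C]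
  · rw [LinearMap.det_eq_sign_charpoly_coeff, hdim, h]
    simp [Polynomial.coeff_X, Polynomial.coeff_C]
  · have hCH := LinearMap.aeval_self_charpoly f
    rw [h] at hCH
    simp only [map_sub, map_add, map_mul, map_pow, aeval_X, aeval_C,
      Algebra.algebraMap_eq_smul_one] at hCH
    rw [← hCH, pow_two, smul_mul_assoc, one_mul]

end LA

section Main

variable {k : Type} [Field k]

/-- two automorphisms agreeing on a field of definition of `ρ̄` have the same image -/
theorem rho_eq_of_eqOn_h186 (ρbar : ResidualGaloisRep k)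
    (L : IntermediateField ℚ (AlgebraicClosure ℚ))
    (hL : ∀ σ : AlgebraicClosure ℚ ≃ₐ[ℚ] AlgebraicClosure ℚ, (∀ x ∈ L, σ x = x) → ρbar.ρ σ = 1)
    (σ τ : AlgebraicClosure ℚ ≃ₐ[ℚ] AlgebraicClosure ℚ)
    (h : ∀ x ∈ L, σ x = τ x) : ρbar.ρ σ = ρbar.ρ τ := by
  have h1 : ρbar.ρ (τ⁻¹ * σ) = 1 := by
    apply hL
    intro x hx
    show (τ⁻¹ : AlgebraicClosure ℚ ≃ₐ[ℚ] AlgebraicClosure ℚ) (σ x) = x
    rw [h x hx]
    show (τ⁻¹ * τ) x = x
    rw [inv_mul_cancel]
    rfl
  have h2 : σ = τ * (τ⁻¹ * σ) := by group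
  rw [h2, map_mul, h1, mul_one]

/-- In characteristic `3`: `(ℓ : k) = 1` if `ℓ ≡ 1`, `(ℓ : k) = -1` if `ℓ ≡ 2 mod 3`. -/
theorem natCast_of_mod_three_h186 [CharP k 3] (ℓ : ℕ) :
    (ℓ % 3 = 1 → (ℓ : k) = 1) ∧ (ℓ % 3 = 2 → (ℓ : k) = -1) := by
  have h3 : ((3 : ℕ) : k) = 0 := CharP.cast_eq_zero k 3
  have hℓ : (ℓ : k) = ((ℓ % 3 : ℕ) : k) := by
    conv_lhs => rw [← Nat.div_add_mod ℓ 3]
    rw [Nat.cast_add, Nat.cast_mul, h3, zero_mul, zero_add]
  constructor
  · intro h
    rw [hℓ, h, Nat.cast_one]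
  · intro h
    rw [hℓ, h]
    have : ((2 : ℕ) : k) + 1 = 0 := by
      have : ((2 : ℕ) : k) + 1 = ((3 : ℕ) : k) := by push_cast; norm_num
      rw [this, h3]
    exact eq_neg_of_add_eq_zero_left this

theorem one_ne_neg_one_h186 [CharP k 3] : (1 : k) ≠ -1 := by
  intro h
  have h2 : ((2 : ℕ) : k) = 0 := by
    have : (1 : k) + 1 = 0 := by nth_rewrite 1 [h]; exact neg_add_cancel 1
    push_cast
    rw [← this]; norm_num
  have := (CharP.cast_eq_zero_iff k 3 2).mp h2
  omega

theorem two_ne_zero_h186 [CharP k 3] : (2 : k) ≠ 0 := by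
  intro h
  have h2 : ((2 : ℕ) : k) = 0 := by exact_mod_cast h
  have := (CharP.cast_eq_zero_iff k 3 2).mp h2
  omega

/-- **The auxiliary prime** at `p = 3`. -/
theorem exists_prime_trace_ne_zero_h186 [CharP k 3] (ρbar : ResidualGaloisRep k)
    (hTW : ∀ (K : Type) [Field K] [Algebra k K]
      (G : Subgroup (AlgebraicClosure ℚ ≃ₐ[ℚ] AlgebraicClosure ℚ)), G.index = 2 →
      ∀ V : Submodule K (ρbar.baseChange K).V,
        (∀ σ ∈ G, ∀ x ∈ V, (ρbar.baseChange K).ρ σ x ∈ V) → V = ⊥ ∨ V = ⊤)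
    (S : Finset ℕ) (a : ℕ → k)
    (ha : ∀ (l : ℕ), l.Prime → l ∉ S →
      ∀ B : ValuationSubring (AlgebraicClosure ℚ), B.LiesOverPrime l →
        ∀ σ : AlgebraicClosure ℚ ≃ₐ[ℚ] AlgebraicClosure ℚ, B.IsFrobeniusAt σ l →
          LinearMap.charpoly (ρbar.ρ σ) = X ^ 2 - C (a l) * X + C ((l : k))) :
    ∃ r : ℕ, r.Prime ∧ r ∉ S ∧ r % 3 = 2 ∧ a r ≠ 0 := by
  classical
  by_contra hcon
  have hcon' : ∀ r : ℕ, r.Prime → r ∉ S → r % 3 = 2 → a r = 0 := by
    intro r h1 h2 h3
    by_contra h4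
    exact hcon ⟨r, h1, h2, h3, h4⟩
  have hdim : finrank k ρbar.V = 2 := ρbar.finrank_eq
  have h2 : (2 : k) ≠ 0 := two_ne_zero_h186
  -- Step A: the dichotomy
  have hA : ∀ σ : AlgebraicClosure ℚ ≃ₐ[ℚ] AlgebraicClosure ℚ,
      LinearMap.det (ρbar.ρ σ) = 1 ∨
        (ρbar.ρ σ * ρbar.ρ σ = 1 ∧ LinearMap.trace k ρbar.V (ρbar.ρ σ) = 0 ∧
          LinearMap.det (ρbar.ρ σ) = -1) := by
    intro σ
    obtain ⟨L, hLfd, hL⟩ := ρbar.factorsThroughFiniteLevel
    obtain ⟨ℓ, A, τ, e, j, hℓ, hℓS, hA, hτ, -, -, hστ⟩ :=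
      Fermat.Agent.Lib.Cheb.frobeniusDivision L hLfd σ (S ∪ {3})
    simp only [Finset.mem_union, Finset.mem_singleton, not_or] at hℓS
    obtain ⟨hℓS, hℓ3⟩ := hℓS
    have hg : ρbar.ρ σ = ρbar.ρ τ ^ j := by
      rw [← map_pow]
      exact (rho_eq_of_eqOn_h186 ρbar L hL (τ ^ j) σ hστ).symm
    obtain ⟨htr, hdet, hCH⟩ := facts_of_charpoly_h186 hdim (ρbar.ρ τ) (a ℓ) (ℓ : k)
      (ha ℓ hℓ hℓS A hA τ hτ)
    have hmod : ℓ % 3 = 1 ∨ ℓ % 3 = 2 := by
      have h0 : ℓ % 3 ≠ 0 := by
        intro h0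
        have : 3 ∣ ℓ := Nat.dvd_of_mod_eq_zero h0
        exact hℓ3 ((Nat.prime_dvd_prime_iff_eq Nat.prime_three hℓ).mp this).symm
      omega
    rcases hmod with h1 | h1
    · left
      rw [hg, map_pow, hdet, (natCast_of_mod_three_h186 ℓ).1 h1, one_pow]
    · have hℓk : (ℓ : k) = -1 := (natCast_of_mod_three_h186 ℓ).2 h1
      have ha0 : a ℓ = 0 := hcon' ℓ hℓ hℓS h1
      have hsq : ρbar.ρ τ * ρbar.ρ τ = 1 := by
        rw [ha0, hℓk, zero_smul, sub_zero, neg_smul, one_smul, ← sub_eq_add_neg] at hCH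
        exact sub_eq_zero.mp hCH
      rcases Nat.even_or_odd j with ⟨m, hm⟩ | ⟨m, hm⟩
      · left
        have : ρbar.ρ τ ^ j = 1 := by
          rw [hm, ← two_mul, pow_mul, pow_two, hsq, one_pow]
        rw [hg, this, map_one]
      · right
        have : ρbar.ρ τ ^ j = ρbar.ρ τ := by
          rw [hm, pow_succ, pow_mul, pow_two, hsq, one_pow, one_mul]
        rw [hg, this]
        exact ⟨hsq, by rw [htr, ha0], by rw [hdet, hℓk]⟩
  -- Step B: the subgroup `H = ker (det ρ̄)`
  let H : Subgroup (AlgebraicClosure ℚ ≃ₐ[ℚ] AlgebraicClosure ℚ) :=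
    { carrier := {σ | LinearMap.det (ρbar.ρ σ) = 1}
      mul_mem' := by
        intro x y hx hy
        change LinearMap.det (ρbar.ρ x) = 1 at hx
        change LinearMap.det (ρbar.ρ y) = 1 at hy
        change LinearMap.det (ρbar.ρ (x * y)) = 1
        rw [map_mul, map_mul, hx, hy, one_mul]
      one_mem' := by
        change LinearMap.det (ρbar.ρ 1) = 1
        rw [map_one, map_one]
      inv_mem' := by
        intro x hx
        change LinearMap.det (ρbar.ρ x) = 1 at hx
        change LinearMap.det (ρbar.ρ x⁻¹) = 1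
        have h : LinearMap.det (ρbar.ρ x⁻¹) * LinearMap.det (ρbar.ρ x) = 1 := by
          rw [← map_mul, ← map_mul, inv_mul_cancel, map_one, map_one]
        rw [hx, mul_one] at h
        exact h }
  have hHmem : ∀ σ, σ ∈ H ↔ LinearMap.det (ρbar.ρ σ) = 1 := fun σ => Iff.rfl
  -- a Frobenius at a prime `≡ 2 mod 3`
  obtain ⟨q, hqgt, hq, hqmod⟩ := Nat.forall_exists_prime_gt_and_eq_mod
    (q := 3) (a := 2) (by decide) (S.sup id)
  have hqS : q ∉ S := by
    intro h
    have : q ≤ S.sup id := Finset.le_sup (f := id) h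
    omega
  have hq3 : q % 3 = 2 := by
    have h1 : ((q : ℕ) : ZMod 3) = ((2 : ℕ) : ZMod 3) := by rw [hqmod]; rfl
    have := (ZMod.natCast_eq_natCast_iff' q 2 3).mp h1
    omega
  obtain ⟨B, σ₀, hB, hσ₀⟩ := Fermat.Agent.S54.exists_frobenius q hq
  obtain ⟨-, hdet₀, -⟩ := facts_of_charpoly_h186 hdim (ρbar.ρ σ₀) (a q) (q : k)
    (ha q hq hqS B hB σ₀ hσ₀)
  rw [(natCast_of_mod_three_h186 q).2 hq3] at hdet₀
  have hne : (-1 : k) ≠ 1 := fun h => one_ne_neg_one_h186 h.symm
  have hdetpm : ∀ σ, LinearMap.det (ρbar.ρ σ) = 1 ∨ LinearMap.det (ρbar.ρ σ) = -1 := by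
    intro σ
    rcases hA σ with h | ⟨-, -, h⟩
    · exact Or.inl h
    · exact Or.inr h
  have hidx : H.index = 2 := by
    rw [Subgroup.index_eq_two_iff]
    refine ⟨σ₀, fun b => ?_⟩
    rw [hHmem, hHmem, map_mul, map_mul, hdet₀]
    rcases hdetpm b with h | h
    · rw [h, one_mul]
      exact Or.inr ⟨rfl, hne⟩
    · rw [h]
      refine Or.inl ⟨by norm_num, hne⟩
  obtain ⟨hg₀, htr₀⟩ : ρbar.ρ σ₀ * ρbar.ρ σ₀ = 1 ∧
      LinearMap.trace k ρbar.V (ρbar.ρ σ₀) = 0 := by
    rcases hA σ₀ with h | ⟨h1, h2, -⟩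
    · rw [hdet₀] at h
      exact absurd h hne
    · exact ⟨h1, h2⟩
  -- Step C: the stable line
  obtain ⟨w, hw0, hw⟩ := exists_stable_line_h186 h2 hdim (ρbar.ρ σ₀) hg₀ htr₀
    (ρbar.ρ '' (H : Set (AlgebraicClosure ℚ ≃ₐ[ℚ] AlgebraicClosure ℚ)))
    (by
      rintro _ ⟨x, hx, rfl⟩ _ ⟨y, hy, rfl⟩
      exact ⟨x * y, H.mul_mem hx hy, map_mul _ _ _⟩)
    (by
      rintro _ ⟨x, hx, rfl⟩
      rw [← map_mul]
      rcases hA (σ₀ * x) with h | ⟨-, h, -⟩
      · rw [map_mul, map_mul, hdet₀, (hHmem x).mp hx, mul_one] at h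
        exact absurd h hne
      · exact h)
    (AlgebraicClosure k)
  -- Step D: contradiction with `hTW`
  let W : Submodule (AlgebraicClosure k) (AlgebraicClosure k ⊗[k] ρbar.V) :=
    Submodule.span (AlgebraicClosure k) {w}
  have hWstab : ∀ σ ∈ H, ∀ y ∈ W, (ρbar.baseChange (AlgebraicClosure k)).ρ σ y ∈ W := by
    intro σ hσ y hy
    obtain ⟨b, rfl⟩ := Submodule.mem_span_singleton.1 hy
    obtain ⟨c, hc⟩ := hw (ρbar.ρ σ) ⟨σ, hσ, rfl⟩
    have e : (ρbar.baseChange (AlgebraicClosure k)).ρ σ w = c • w := hc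
    rw [map_smul, e]
    exact Submodule.smul_mem _ _ (Submodule.smul_mem _ _ (Submodule.mem_span_singleton_self w))
  rcases hTW (AlgebraicClosure k) H hidx W hWstab with h | h
  · exact hw0 (Submodule.span_singleton_eq_bot.1 h)
  · have h1 : Module.finrank (AlgebraicClosure k) W = 2 := by
      rw [h, finrank_top, Module.finrank_baseChange, ρbar.finrank_eq]
    have h2' : Module.finrank (AlgebraicClosure k) W = 1 := finrank_span_singleton hw0
    omega

end Main

end Fermat.Agent.S59.TW.Aut.H186
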