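import Fermat.Agent.S59.TW.Aut.Spec
import Fermat.Agent.S59.H686.ResFrobDatum
import Fermat.Agent.S59.H424.NEPrimeK
import Fermat.Agent.S59.TW.Aut.H186.AuxPrime

/-!
# Row S59, cell TW, layer 3 (AUT), leaf FREE: the auxiliary primes, package form (helper186)

For a Hecke package `P : HeckePkg p 𝒪 ρ̄ t Smin Σ` under `ResidualHyp` and a finite set `S'`:

* `resFrobCond_pkg_h186`  : `G4.ResFrobCond ρ̄ P.θ` (leaf RFD at the package);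
* `exists_nonEis_pkg_h186` / `exists_nonEis_tset_h186` (case (A)): a prime `ℓ ∉ S'`, good for `P`,
  `ℓ ≡ 1 mod m` (any `m ≥ 1`) and `mod p`, with `θ(T_ℓ) ≠ ℓ + 1`; in `TsetOf` form:
  `(ℓ, c) ∈ TsetOf P` with `c - (ℓ + 1)` a unit of `𝒪` (wrapper of `H424.nePrimeK_h424`);
* `exists_aux3_pkg_h186` / `exists_aux3_tset_h186` (case (B), `p = 3`): a prime `r ∉ S'`, good for
  `P`, `r ≡ 2 mod 3`, with `θ(T_r) ≠ 0`; in `TsetOf` form: `(r, c) ∈ TsetOf P` with `c` a unit.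
-/

set_option autoImplicit false

open Polynomial IsLocalRing

namespace Fermat.Agent.S59.TW.Aut.H186

open Fermat.Agent.S59.Arch Fermat.Agent.S59.TW.H959 Fermat.Agent.S59.TW.Aut

section Pkg

variable {p : ℕ} [Fact p.Prime]
  {𝒪 : Type} [CommRing 𝒪] [IsDomain 𝒪] [IsDiscreteValuationRing 𝒪]
  [IsAdicComplete (maximalIdeal 𝒪) 𝒪]
  {ρbar : ResidualGaloisRep (ResidueField 𝒪)} {t : PType} {Smin Sig : Finset ℕ}
  [NeZero (wilesLevel p t Smin Sig)]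

omit [Fact p.Prime] in
/-- The residual character of a package is the Frobenius character of `ρ̄`. -/
theorem resFrobCond_pkg_h186 (P : HeckePkg p 𝒪 ρbar t Smin Sig) :
    G4.ResFrobCond ρbar P.θ :=
  Fermat.Agent.S59.H686.resFrobOfDatum (wilesLevel p t Smin Sig) (↑Sig : Set ℕ) 𝒪 ρbar P.θ
    P.T P.H P.hres

/-- The Frobenius traces of a package, as a function on `ℕ`. -/
noncomputable def aOf_h186 (P : HeckePkg p 𝒪 ρbar t Smin Sig) (ℓ : ℕ) : ResidueField 𝒪 :=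
  open scoped Classical in
  if h : ℓ.Prime ∧ ¬ ℓ ∣ wilesLevel p t Smin Sig ∧ ℓ ∉ (↑Sig : Set ℕ) then
    P.θ (CuspForm.heckeAlgebra.T h.1 h.2.1 h.2.2)
  else 0

omit [Fact p.Prime] in
theorem aOf_eq_h186 (P : HeckePkg p 𝒪 ρbar t Smin Sig) {ℓ : ℕ} (hℓ : ℓ.Prime)
    (hℓN : ¬ ℓ ∣ wilesLevel p t Smin Sig) (hℓS : ℓ ∉ (↑Sig : Set ℕ)) :
    aOf_h186 P ℓ = P.θ (CuspForm.heckeAlgebra.T hℓ hℓN hℓS) := by
  unfold aOf_h186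
  rw [dif_pos ⟨hℓ, hℓN, hℓS⟩]

/-- The exceptional set of a package, enlarged by `S'`. -/
noncomputable def excSet_h186 (p : ℕ) (t : PType) (Smin Sig S' : Finset ℕ) : Finset ℕ :=
  Sig ∪ (wilesLevel p t Smin Sig).primeFactors ∪ S'

omit [Fact p.Prime] in
theorem good_of_notMem_excSet_h186 {S' : Finset ℕ} {ℓ : ℕ} (hℓ : ℓ.Prime)
    (h : ℓ ∉ excSet_h186 p t Smin Sig S') :
    ¬ ℓ ∣ wilesLevel p t Smin Sig ∧ ℓ ∉ (↑Sig : Set ℕ) ∧ ℓ ∉ S' := by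
  unfold excSet_h186 at h
  simp only [Finset.mem_union, not_or] at h
  obtain ⟨⟨h1, h2⟩, h3⟩ := h
  refine ⟨fun hd => h2 (Nat.mem_primeFactors.mpr ⟨hℓ, hd, NeZero.ne _⟩), ?_, h3⟩
  exact fun hs => h1 (Finset.mem_coe.mp hs)

omit [Fact p.Prime] in
theorem charpoly_aOf_h186 (P : HeckePkg p 𝒪 ρbar t Smin Sig) (S' : Finset ℕ) :
    ∀ (l : ℕ), l.Prime → l ∉ excSet_h186 p t Smin Sig S' →
      ∀ B : ValuationSubring (AlgebraicClosure ℚ), B.LiesOverPrime l →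
        ∀ σ : AlgebraicClosure ℚ ≃ₐ[ℚ] AlgebraicClosure ℚ, B.IsFrobeniusAt σ l →
          LinearMap.charpoly (ρbar.ρ σ) =
            X ^ 2 - C (aOf_h186 P l) * X + C ((l : ResidueField 𝒪)) := by
  intro l hl hlS B hB σ hσ
  obtain ⟨hlN, hlSig, -⟩ := good_of_notMem_excSet_h186 hl hlS
  rw [aOf_eq_h186 P hl hlN hlSig]
  exact resFrobCond_pkg_h186 P l hl hlN hlSig B hB σ hσ

omit [IsAdicComplete (maximalIdeal 𝒪) 𝒪] in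
theorem charP_residue_h186 (hp𝒪 : (p : 𝒪) ∈ maximalIdeal 𝒪) : CharP (ResidueField 𝒪) p := by
  have hp : p.Prime := Fact.out
  apply (CharP.charP_iff_prime_eq_zero hp).mpr
  have : residue 𝒪 (p : 𝒪) = 0 := (residue_eq_zero_iff _).mpr hp𝒪
  rwa [map_natCast] at this

/-- **Case (A): a non-Eisenstein prime**, good for the package, outside `S'`, `≡ 1` modulo any
given `m ≥ 1` (and modulo `p`). -/
theorem exists_nonEis_pkg_h186 [Finite (ResidueField 𝒪)] (hRH : ResidualHyp p 𝒪 ρbar Smin)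
    (hSig : Smin ⊆ Sig) (P : HeckePkg p 𝒪 ρbar t Smin Sig) (S' : Finset ℕ) (m : ℕ)
    (hm : 0 < m) :
    ∃ (ℓ : ℕ) (hℓ : ℓ.Prime) (hℓN : ¬ ℓ ∣ wilesLevel p t Smin Sig) (hℓS : ℓ ∉ (↑Sig : Set ℕ)),
      ℓ ∉ S' ∧ ℓ ≡ 1 [MOD m] ∧ ℓ ≡ 1 [MOD p] ∧
      P.θ (CuspForm.heckeAlgebra.T hℓ hℓN hℓS) ≠ (ℓ : ResidueField 𝒪) + 1 := by
  have hp : p.Prime := Fact.out
  have hchar : CharP (ResidueField 𝒪) p := charP_residue_h186 hRH.hp𝒪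
  obtain ⟨q, hq, hqp⟩ : ∃ q : ℕ, q.Prime ∧ q ≠ p := by
    by_cases h : p = 2
    · exact ⟨3, Nat.prime_three, by omega⟩
    · exact ⟨2, Nat.prime_two, fun h' => h h'.symm⟩
  have hpS : p ∈ excSet_h186 p t Smin Sig S' := by
    unfold excSet_h186
    exact Finset.mem_union_left _ (Finset.mem_union_left _ (hSig hRH.hpSmin))
  obtain ⟨ℓ, hℓ, hℓS, -, hℓm, hℓp, hne, -⟩ :=
    Fermat.Agent.S59.H424.nePrimeK_h424 p hRH.hp2 (ResidueField 𝒪) ρbar hRH.habs hRH.hsplit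
      (excSet_h186 p t Smin Sig S') hpS (aOf_h186 P) (charpoly_aOf_h186 P S') q hq hqp m
      hm ∅
  obtain ⟨hℓN, hℓSig, hℓS'⟩ := good_of_notMem_excSet_h186 hℓ hℓS
  refine ⟨ℓ, hℓ, hℓN, hℓSig, hℓS', hℓm, hℓp, ?_⟩
  rw [← aOf_eq_h186 P hℓ hℓN hℓSig]
  exact hne

/-- **Case (A), `TsetOf` form**: `(ℓ, c) ∈ TsetOf P`, `ℓ ∉ S'`, `ℓ ≡ 1 mod m`, `c - (ℓ + 1)` a unit
of `𝒪`. -/
theorem exists_nonEis_tset_h186 [Finite (ResidueField 𝒪)] (hRH : ResidualHyp p 𝒪 ρbar Smin)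
    (hSig : Smin ⊆ Sig) (P : HeckePkg p 𝒪 ρbar t Smin Sig) (S' : Finset ℕ) (m : ℕ)
    (hm : 0 < m) :
    ∃ (ℓ : ℕ) (c : 𝒪), (ℓ, c) ∈ TsetOf P ∧ ℓ.Prime ∧ ¬ ℓ ∣ wilesLevel p t Smin Sig ∧
      ℓ ∉ Sig ∧ ℓ ∉ S' ∧ ℓ ≡ 1 [MOD m] ∧ ℓ ≡ 1 [MOD p] ∧ IsUnit (c - ((ℓ : 𝒪) + 1)) := by
  obtain ⟨ℓ, hℓ, hℓN, hℓS, hℓS', hℓm, hℓp, hne⟩ := exists_nonEis_pkg_h186 hRH hSig P S' m hm
  obtain ⟨c, hc⟩ := residue_surjective (P.θ (CuspForm.heckeAlgebra.T hℓ hℓN hℓS))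
  refine ⟨ℓ, c, ⟨hℓ, hℓN, hℓS, hc⟩, hℓ, hℓN, fun h => hℓS (Finset.mem_coe.mpr h), hℓS', hℓm,
    hℓp, ?_⟩
  rw [← notMem_maximalIdeal, ← residue_eq_zero_iff, map_sub, map_add, map_natCast, map_one, hc,
    sub_eq_zero]
  exact hne

/-- **Case (B): the auxiliary prime at `p = 3`**, good for the package, outside `S'`. -/
theorem exists_aux3_pkg_h186 (hp3 : p = 3) (hRH : ResidualHyp p 𝒪 ρbar Smin)
    (P : HeckePkg p 𝒪 ρbar t Smin Sig) (S' : Finset ℕ) :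
    ∃ (r : ℕ) (hr : r.Prime) (hrN : ¬ r ∣ wilesLevel p t Smin Sig) (hrS : r ∉ (↑Sig : Set ℕ)),
      r ∉ S' ∧ r % 3 = 2 ∧ P.θ (CuspForm.heckeAlgebra.T hr hrN hrS) ≠ 0 := by
  have hchar : CharP (ResidueField 𝒪) 3 := by
    have := charP_residue_h186 (p := p) hRH.hp𝒪
    rwa [hp3] at this
  obtain ⟨r, hr, hrS, hr3, hne⟩ :=
    exists_prime_trace_ne_zero_h186 ρbar hRH.hTW (excSet_h186 p t Smin Sig S') (aOf_h186 P)
      (charpoly_aOf_h186 P S')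
  obtain ⟨hrN, hrSig, hrS'⟩ := good_of_notMem_excSet_h186 hr hrS
  refine ⟨r, hr, hrN, hrSig, hrS', hr3, ?_⟩
  rw [← aOf_eq_h186 P hr hrN hrSig]
  exact hne

/-- **Case (B), `TsetOf` form**: `(r, c) ∈ TsetOf P`, `r ∉ S'`, `r ≡ 2 mod 3`, `c` a unit. -/
theorem exists_aux3_tset_h186 (hp3 : p = 3) (hRH : ResidualHyp p 𝒪 ρbar Smin)
    (P : HeckePkg p 𝒪 ρbar t Smin Sig) (S' : Finset ℕ) :
    ∃ (r : ℕ) (c : 𝒪), (r, c) ∈ TsetOf P ∧ r.Prime ∧ ¬ r ∣ wilesLevel p t Smin Sig ∧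
      r ∉ Sig ∧ r ∉ S' ∧ r % 3 = 2 ∧ IsUnit c := by
  obtain ⟨r, hr, hrN, hrS, hrS', hr3, hne⟩ := exists_aux3_pkg_h186 hp3 hRH P S'
  obtain ⟨c, hc⟩ := residue_surjective (P.θ (CuspForm.heckeAlgebra.T hr hrN hrS))
  refine ⟨r, c, ⟨hr, hrN, hrS, hc⟩, hr, hrN, fun h => hrS (Finset.mem_coe.mpr h), hrS', hr3, ?_⟩
  rw [← notMem_maximalIdeal, ← residue_eq_zero_iff, hc]
  exact hne

end Pkg

end Fermat.Agent.S59.TW.Aut.H186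

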