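import Fermat.Agent.S59.TW.Aut.H186.AuxPrime
import Fermat.Agent.S59.H405.GTW
import Fermat.Agent.S58.H273.Hres

/-!
# S59, level optimisation at `p = 3`: the auxiliary prime in `W`-form (helper186)

`exists_aux3_W_h186`: for a semistable integral Weierstrass curve `W` with irreducible `W[3]` and
every finite set `S` of primes there is a prime `r ∉ S`, `r ≡ 2 mod 3`, of good reduction for `W`,
with `3 ∤ a_r(W)`.  (So `a_r(W)² - (r + 1)² ≡ a_r(W)² ≢ 0 mod 3`: the prime `r` can be added to the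
level — `Γ₀(M r)` is then free of elliptic elements of order `3` — and removed again.)

Proof: `H186.exists_prime_trace_ne_zero_h186` (Chebotarev + the index-two irreducibility `hTW`)
for `ρ̄ = W[3]` over `𝔽₃`, `hTW` from `H405.gtw`, Frobenius characteristic polynomials from
`S58.H273.wRes_charpoly_frob`.

`exists_aux3_W_sq_h186` is the same statement in the shape `¬ 3 ∣ a_r² - (r + 1)²`.
-/

set_option autoImplicit false
set_option linter.style.haveILetI false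

open Polynomial

namespace Fermat.Agent.S59.TW.Aut.H186

open WeierstrassCurve

/-- The finite set of primes of bad reduction of `W`. -/
noncomputable def badSet_h186 (W : WeierstrassCurve ℤ) : Finset ℕ := W.Δ.natAbs.primeFactors

theorem good_of_notMem_badSet_h186 (W : WeierstrassCurve ℤ) (hΔ : W.Δ ≠ 0) {ℓ : ℕ}
    (hℓ : ℓ.Prime) (h : ℓ ∉ badSet_h186 W) : W.IsGoodPrimeFor ℓ := by
  intro hd
  apply h
  unfold badSet_h186
  rw [Nat.mem_primeFactors]
  refine ⟨hℓ, ?_, fun h0 => hΔ (Int.natAbs_eq_zero.mp h0)⟩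
  exact Int.natCast_dvd.mp hd

/-- **The auxiliary prime at `p = 3`, `W`-form.** -/
theorem exists_aux3_W_h186 (W : WeierstrassCurve ℤ) (hΔ : W.Δ ≠ 0) (hW : W.IsSemistableModel)
    (hirr : W.ModRepIsIrreducible 3) (S : Finset ℕ) :
    ∃ r : ℕ, r.Prime ∧ r ∉ S ∧ r % 3 = 2 ∧ W.IsGoodPrimeFor r ∧
      ¬ (3 : ℤ) ∣ W.apOfModel r := by
  classical
  have : Fact (Nat.Prime 3) := ⟨Nat.prime_three⟩
  have hcard := Fermat.Agent.S58.H273.wRes_hcard W hΔ 3
  have hker := Fermat.Agent.S58.H273.wRes_hker W hΔ 3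
  -- the residual representation over `𝔽₃`, in the shape of `H405.gtw`
  obtain ⟨ρbar, hρ⟩ : ∃ ρbar : ResidualGaloisRep (ZMod 3), ρbar =
      ((W.map (Int.castRingHom ℚ)).residualGaloisRepOf 3 hcard hker).baseChangeAlong
        (RingHom.id (ZMod 3)) := ⟨_, rfl⟩
  have hTW : ∀ (K : Type) [Field K] [Algebra (ZMod 3) K]
      (G : Subgroup (AlgebraicClosure ℚ ≃ₐ[ℚ] AlgebraicClosure ℚ)), G.index = 2 →
      ∀ V : Submodule K (ρbar.baseChange K).V,
        (∀ σ ∈ G, ∀ x ∈ V, (ρbar.baseChange K).ρ σ x ∈ V) → V = ⊥ ∨ V = ⊤ := by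
    intro K _ _ G hG V hV
    exact Fermat.Agent.S59.H405.gtw 3 (Or.inl rfl) W hΔ hW hirr hcard hker (ZMod 3)
      (RingHom.id (ZMod 3)) ρbar ⟨by rw [hρ]; exact ResidualGaloisRep.Equiv.refl _⟩ K G hG V hV
  have hchar : ∀ (l : ℕ), l.Prime → l ∉ S ∪ insert 3 (badSet_h186 W) →
      ∀ B : ValuationSubring (AlgebraicClosure ℚ), B.LiesOverPrime l →
        ∀ σ : AlgebraicClosure ℚ ≃ₐ[ℚ] AlgebraicClosure ℚ, B.IsFrobeniusAt σ l →
          LinearMap.charpoly (ρbar.ρ σ) =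
            X ^ 2 - C (((W.apOfModel l : ℤ) : ZMod 3)) * X + C ((l : ZMod 3)) := by
    intro l hl hlS B hB σ hσ
    simp only [Finset.mem_union, Finset.mem_insert, not_or] at hlS
    obtain ⟨-, hl3, hlbad⟩ := hlS
    have hgood := good_of_notMem_badSet_h186 W hΔ hl hlbad
    have h0 := Fermat.Agent.S58.H273.wRes_charpoly_frob W hΔ 3 (by decide) hirr l hl hl3 hgood
      B hB σ hσ
    have h0' : LinearMap.charpoly
        (((W.map (Int.castRingHom ℚ)).residualGaloisRepOf 3 hcard hker).ρ σ) =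
        X ^ 2 - C (((W.apOfModel l : ℤ) : ZMod 3)) * X + C ((l : ZMod 3)) := h0
    letI : Algebra (ZMod 3) (ZMod 3) := (RingHom.id (ZMod 3)).toAlgebra
    have hbc : LinearMap.charpoly (ρbar.ρ σ) = (LinearMap.charpoly
        (((W.map (Int.castRingHom ℚ)).residualGaloisRepOf 3 hcard hker).ρ σ)).map
          (algebraMap (ZMod 3) (ZMod 3)) := by
      rw [hρ]
      exact LinearMap.charpoly_baseChange
        (((W.map (Int.castRingHom ℚ)).residualGaloisRepOf 3 hcard hker).ρ σ) (ZMod 3)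
    have hid : (algebraMap (ZMod 3) (ZMod 3)) = RingHom.id (ZMod 3) := rfl
    rw [hbc, hid, Polynomial.map_id, h0']
  obtain ⟨r, hr, hrS, hr3, har⟩ := exists_prime_trace_ne_zero_h186 ρbar hTW
    (S ∪ insert 3 (badSet_h186 W)) (fun l => ((W.apOfModel l : ℤ) : ZMod 3)) hchar
  simp only [Finset.mem_union, Finset.mem_insert, not_or] at hrS
  obtain ⟨hrS, -, hrbad⟩ := hrS
  refine ⟨r, hr, hrS, hr3, good_of_notMem_badSet_h186 W hΔ hr hrbad, fun hd => har ?_⟩
  exact (ZMod.intCast_zmod_eq_zero_iff_dvd (W.apOfModel r) 3).mpr hd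

/-- The same prime, in the shape used by the removal of an auxiliary prime:
`3 ∤ a_r(W)² - (r + 1)²`. -/
theorem exists_aux3_W_sq_h186 (W : WeierstrassCurve ℤ) (hΔ : W.Δ ≠ 0)
    (hW : W.IsSemistableModel) (hirr : W.ModRepIsIrreducible 3) (S : Finset ℕ) :
    ∃ r : ℕ, r.Prime ∧ r ∉ S ∧ r ≠ 3 ∧ r % 3 = 2 ∧ W.IsGoodPrimeFor r ∧
      ¬ (3 : ℤ) ∣ W.apOfModel r ^ 2 - ((r : ℤ) + 1) ^ 2 := by
  obtain ⟨r, hr, hrS, hr3, hgood, ha⟩ := exists_aux3_W_h186 W hΔ hW hirr S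
  refine ⟨r, hr, hrS, fun h => by rw [h] at hr3; omega, hr3, hgood, fun hd => ha ?_⟩
  have h1n : (3 : ℕ) ∣ r + 1 := by omega
  have h1 : (3 : ℤ) ∣ (r : ℤ) + 1 := by exact_mod_cast h1n
  have h2 : (3 : ℤ) ∣ W.apOfModel r ^ 2 := by
    have h3 : (3 : ℤ) ∣ ((r : ℤ) + 1) ^ 2 := Dvd.dvd.pow h1 two_ne_zero
    have := dvd_add hd h3
    rwa [sub_add_cancel] at this
  exact Int.Prime.dvd_pow' (by norm_num : Nat.Prime 3) h2

end Fermat.Agent.S59.TW.Aut.H186
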